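import Fermat.Agent.S17.Defs
import Fermat.Agent.S17.TP.Height
import Fermat.Agent.S17.Tools.QuasiQuad

/-!
# S17 top level: the interfaces between the blocks (owner: helper17).  Definitions only.

* `sumD h E`      : additive extension of `h : Place → ℝ` to divisors
* `redDiv P₀ x`   : the reduced divisor of the class `x` (see `IsRed`)
* `HtOut H P₀`    : OUTPUT of the height blocks (TP, PL, HA, FC, FN) for a function field `F` over
                    `Qb` with a base place `P₀` and an abstract height `H`
* `IsArith H`     : the two arithmetic properties of the height used by block NG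
* `HeightData N`  : what the final descent consumes
-/

set_option autoImplicit false

noncomputable section

namespace Fermat.Agent.S17

open AlgebraicCurve Fermat.Agent.S24.FF Fermat.Agent.S27 ModularCurve

section General

variable {K F : Type*} [Field K] [Field F] [Algebra K F]

/-- additive extension of a function on places to divisors -/
def sumD (h : Place K F → ℝ) (E : Divisor K F) : ℝ := E.sum fun P n => (n : ℝ) * h P

open Classical in
/-- the reduced divisor of a class (junk value `0` if there is none) -/
def redDiv (P₀ : Place K F) (x : Pic0 K F) : Divisor K F :=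
  if h : ∃ E, IsRed P₀ x E then h.choose else 0

end General

/-- OUTPUT of the height blocks. -/
structure HtOut {F : Type} [Field F] [Algebra Qb F] (H : TP.HeightFn Qb) (P₀ : Place Qb F) where
  /-- the quasi-quadratic height on the class group -/
  f : Pic0 Qb F → ℝ
  /-- the height of a point relative to `P₀` -/
  hoo : Place Qb F → ℝ
  /-- the finite set of translations -/
  Z : Finset (Pic0 Qb F)
  C : ℝ
  cube : ∀ x y z, |cubeDefect f x y z| ≤ C
  hoo_nonneg : ∀ P, 0 ≤ hoo P
  lower : ∀ (z : Pic0 Qb F) (E : Divisor Qb F), IsRed P₀ (-z) E →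
    ∃ a ∈ Z, sumD hoo E - C ≤ f (z - a)
  point : ∀ (m : ℕ) (x : F), x ∈ Lm P₀ m →
    ∃ C' : ℝ, ∀ P : Place Qb F, P ≠ P₀ → H.h ![1, ev P x] ≤ m * hoo P + C'

/-- the function `eta` of the descent lemma -/
def HtOut.eta {F : Type} [Field F] [Algebra Qb F] {H : TP.HeightFn Qb} {P₀ : Place Qb F}
    (o : HtOut H P₀) (z : Pic0 Qb F) : ℝ := sumD o.hoo (redDiv P₀ (-z))

/-- the arithmetic properties of the height: Galois invariance and Northcott over `ℚ` -/
structure IsArith (H : TP.HeightFn Qb) : Prop where
  galois : ∀ {ι : Type} [Finite ι] (σ : GQ) (x : ι → Qb), H.h (fun i => σ (x i)) = H.h x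
  northcott : ∀ (n : ℕ) (B : ℝ),
    {x : Fin n → ℚ | H.h (Fin.cons (1 : Qb) (fun i => algebraMap ℚ Qb (x i)) : Fin (n + 1) → Qb)
      ≤ B}.Finite

/-- what the final descent consumes -/
def HeightData (N : ℕ) [NeZero N] : Prop :=
  ∃ (f eta : JZero N → ℝ) (Z : Finset (JZero N)) (C : ℝ),
    (∀ x y z, |cubeDefect f x y z| ≤ C) ∧ (∀ z, 0 ≤ eta z) ∧
    (∀ z, ∃ a ∈ Z, eta z - C ≤ f (z - a)) ∧
    ∀ B : ℝ, {z | z ∈ FixedPoints.addSubgroup GQ (JZero N) ∧ eta z ≤ B}.Finite

end Fermat.Agent.S17
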