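import Fermat.Agent.S17.Tools.QuasiQuad
import Fermat.Agent.S17.Tools.AbstractNorthcott

/-! # S17 top level: the abstract descent lemma QF'

`A ≤ A'` abelian groups, `f : A' → ℝ` with bounded third difference, `eta ≥ 0` on `A'`,
a finite set `Z` of translations with `eta z - C ≤ f (z - a)` for some `a ∈ Z`,
Northcott for `eta` on `A`, and `A / 2 A` finite.  Then `A` is finitely generated. -/

set_option autoImplicit false

namespace Fermat.Agent.S17

theorem fg_of_height_data {A' : Type*} [AddCommGroup A'] (A : AddSubgroup A')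
    (f eta : A' → ℝ) (Z : Finset A') (C : ℝ)
    (hf : ∀ x y z, |cubeDefect f x y z| ≤ C)
    (heta : ∀ z, 0 ≤ eta z)
    (hZ : ∀ z, ∃ a ∈ Z, eta z - C ≤ f (z - a))
    (hN : ∀ B : ℝ, {z | z ∈ A ∧ eta z ≤ B}.Finite)
    (hW : (nsmulAddMonoidHom (α := ↥A) 2).range.FiniteIndex) :
    AddGroup.FG ↥A := by
  classical
  obtain ⟨q, lam, C', hq, hX⟩ := exists_quadratic_add_additive f C hf
  have key := nonneg_and_le_of_translates q lam eta (Z.image fun a => -a) (C + C') hq heta (by
    intro x
    obtain ⟨a, ha, h⟩ := hZ x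
    refine ⟨-a, Finset.mem_image_of_mem _ ha, ?_⟩
    have h2 := abs_le.1 (hX (x - a))
    rw [← sub_eq_add_neg]
    linarith [h2.1, h2.2])
  obtain ⟨hq0, C'', hle⟩ := key
  let h : ↥A → ℝ := fun x => q (x : A')
  have : Northcott h := ⟨fun B => by
    have hfin := hN (3 * B + C'')
    have : (Subtype.val '' {a : ↥A | h a ≤ B}) ⊆ {z | z ∈ A ∧ eta z ≤ 3 * B + C''} := by
      rintro _ ⟨a, ha, rfl⟩
      refine ⟨a.2, ?_⟩
      have h1 := hle (a : A')
      have h2 : q (a : A') ≤ B := ha
      linarith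
    exact (hfin.subset this).of_finite_image (Subtype.val_injective.injOn)⟩
  refine AddCommGroup.fg_of_descent' (h := h) (C := 0) hW (fun x => hq0 _) (fun x y => ?_)
  have := hq (x : A') (y : A')
  simp only [h, AddSubgroup.coe_add, AddSubgroup.coe_sub]
  rw [this]
  have e : 2 * q (x : A') + 2 * q (y : A') - 2 * (q (x : A') + q (y : A')) = 0 := by ring
  rw [e, abs_zero]
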