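import Fermat.Agent.S17.NG.Main
import Fermat.Agent.S17.NG.Equiv
import Fermat.Agent.S17.NG.Fibre
import Fermat.Agent.S17.Top.Descent

/-!
# S17, top level assembly: `heightData_of`, `fg_of`.   Owner: helper184.
-/

set_option autoImplicit false

noncomputable section

namespace Fermat.Agent.S17

open AlgebraicCurve Fermat.Agent.S24 Fermat.Agent.S24.FF Fermat.Agent.S27 ModularCurve Polynomial

theorem heightData_of (N : ℕ) [NeZero N] (H : TP.HeightFn Qb) (hH : IsArith H)
    (o : HtOut H (W.cusp N)) : HeightData N := by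
  haveI : IsFF1 Qb (FN N) := Export.isFF1 N
  haveI : NonConst Qb (FN N) := ⟨⟨jF N, Formal.transcendental_jF N⟩⟩
  refine ⟨o.f, o.eta, o.Z, o.C, o.cube, fun z => ?_, fun z => ?_, NG.finite_eta_le N H hH o⟩
  · exact NG.sumD_nonneg o.hoo o.hoo_nonneg _ (NG.isRed_redDiv (W.cusp N) (-z)).1
  · exact o.lower z _ (NG.isRed_redDiv (W.cusp N) (-z))

theorem fg_of (N : ℕ) [NeZero N] (hKL : Fermat.Agent.GAL.KLStatement) (hD : HeightData N) :
    AddGroup.FG ↥(FixedPoints.addSubgroup GQ (JZero N)) := by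
  obtain ⟨f, eta, Z, C, h1, h2, h3, h4⟩ := hD
  exact fg_of_height_data _ f eta Z C h1 h2 h3 h4 (W.weakMW hKL N)

end Fermat.Agent.S17

end
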